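import Fermat.Agent.MR.PLC.Desc.Form
import Fermat.Agent.MR.PLC.Abs.Defs
import Fermat.Agent.S36R.K0.GaussK0
import Fermat.Agent.S36R.K0.Fixed
import Fermat.Agent.DR.Conc.Multi
import Fermat.Agent.DR.Conc.Rank

/-!
# MR / PLC / Desc : the concrete `K0`-facts

`A` a valuation subring of `Kbar` over `p`, `I` its inertia group, `K0 A = Kbar ^ I`.

* `base_of_A`  : `Abs.Base T (p : K0 A)` for every family of reductions `T` over `A`;
* `factD_TT`   : FACT D for `F0 = FF (K0 A) (M * p)` and the two reductions `Conc.TT A M p`;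
* `fixE Sm`, `form` : the `K0`-form `E ^ I` of a series model `Sm : SerModel Kbar E I`.
-/

set_option autoImplicit false
set_option linter.unusedSectionVars false

noncomputable section

namespace Fermat.Agent.MR.PLC.Desc

open AlgebraicCurve ModularCurve Fermat.Agent.S24 Fermat.Agent.GAL Fermat.Agent.GAL.Gauss
  Fermat.Agent.GAL.RED Fermat.Agent.DR Fermat.Agent.DR.Abs Fermat.Agent.S36R Fermat.Agent.MR.PLC.Ser
  Fermat.Agent.MR.PLC.Abs

variable (A : ValuationSubring Kbar) {p : ℕ} (hp : p.Prime) (hA : A.LiesOverPrime p)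

section base

variable {E k : Type*} [Field E] [Algebra Kbar E] [Field k] {Ω : Type*} [Nonempty Ω]
  {Fb : Ω → Type*} [∀ w, Field (Fb w)] [∀ w, Algebra k (Fb w)]

include hp hA in
/-- `K0 A` is discretely valued with uniformiser `p`. -/
theorem base_of_A (T : MultiRed Kbar E k Fb) (hTA : T.A = A) : Base T ((p : ℕ) : K0 A) := by
  obtain ⟨w⟩ := ‹Nonempty Ω›
  have hR : (T.R w).A = A := (T.A_eq w).trans hTA
  have hpn : (p : Kbar) ∈ A.nonunits := hA
  have hcast : algebraMap (K0 A) Kbar ((p : ℕ) : K0 A) = (p : Kbar) := map_natCast _ p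
  refine ⟨Nat.cast_ne_zero.2 hp.ne_zero, ?_, ?_, ?_, ?_, ?_⟩
  · rw [hcast, hTA]
    exact A.nonunits_subset hpn
  · rw [hcast, ← T.redA_eq w, (T.R w).redA_eq_zero_iff (by rw [hR]; exact A.nonunits_subset hpn), hR]
    exact (ValuationSubring.mem_nonunits_iff A).1 hpn
  · rw [hTA]
    have : IsDiscreteValuationRing (K0L.OI A) := K0L.isDiscreteValuationRing_OI A hp hA
    exact (inferInstance : IsNoetherianRing (K0L.OI A))
  · intro c
    obtain ⟨a, ha, rfl⟩ := T.redA_surj c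
    rw [hTA] at ha
    obtain ⟨b, hb, hbA, hab⟩ := K0L.exists_rep' A hp hA ha
    refine ⟨⟨b, hb⟩, by rw [hTA]; exact hbA, ?_⟩
    show T.redA b = T.redA a
    have hA1 : a ∈ (T.R w).A := by rw [hR]; exact ha
    have hB1 : b ∈ (T.R w).A := by rw [hR]; exact hbA
    have h0 : (T.R w).redA (a - b) = 0 := by
      rw [(T.R w).redA_eq_zero_iff ((T.R w).A.sub_mem hA1 hB1), hR]
      exact (ValuationSubring.mem_nonunits_iff A).1 hab
    rw [sub_eq_add_neg, (T.R w).redA_add hA1 ((T.R w).A.neg_mem _ hB1), (T.R w).redA_neg,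
      ← sub_eq_add_neg, sub_eq_zero] at h0
    rw [← T.redA_eq w, ← T.redA_eq w, h0]
  · intro b
    obtain ⟨r, hr⟩ := Conc.exists_pow_mul_mem_nonunits A p hp hA (p : Kbar) hpn b
    refine ⟨r, ?_⟩
    rw [hcast, hTA, mul_comm]
    exact A.nonunits_subset hr

end base

section factD

variable (M : ℕ) [NeZero M] [NeZero p] (hpM : ¬ p ∣ M)

theorem cE_natCast : cE Kbar (FN (M * p)) ((p : ℕ) : K0 A) = ((p : ℕ) : FN (M * p)) := by
  show algebraMap Kbar (FN (M * p)) (algebraMap (K0 A) Kbar ((p : ℕ) : K0 A)) = _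
  rw [map_natCast, map_natCast]

/-- FACT D at `∞`. -/
theorem factD_R1 (z : FF (K0 A) (M * p)) (hz : z ≠ 0) :
    ∃ n : ℤ, (Conc.R1 A M p hp hpM hA).red
      ((bc0 A (M * p) z : FN (M * p)) / cE Kbar (FN (M * p)) ((p : ℕ) : K0 A) ^ n) ≠ 0 := by
  obtain ⟨n, h, hr⟩ := gauss_K0 hp hA (M * p) z hz
  refine ⟨-n, ?_⟩
  have e : ((((bc0 A (M * p) z : FN (M * p)) / cE Kbar (FN (M * p)) ((p : ℕ) : K0 A) ^ (-n) :
      FN (M * p))) : LaurentSeries Kbar)
      = HahnSeries.C ((p : Kbar) ^ n) * ((bc0 A (M * p) z : FF Kbar (M * p)) : LaurentSeries Kbar) := by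
    have e1 : (bc0 A (M * p) z : FN (M * p)) / cE Kbar (FN (M * p)) ((p : ℕ) : K0 A) ^ (-n)
        = algebraMap Kbar (FN (M * p)) ((p : Kbar) ^ n) * (bc0 A (M * p) z : FN (M * p)) := by
      have e2 : cE Kbar (FN (M * p)) ((p : ℕ) : K0 A) = algebraMap Kbar (FN (M * p)) (p : Kbar) := by
        show algebraMap Kbar (FN (M * p)) (algebraMap (K0 A) Kbar ((p : ℕ) : K0 A)) = _
        rw [map_natCast]
      rw [zpow_neg, div_inv_eq_mul, map_zpow₀, e2]
      exact mul_comm _ _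
    rw [e1, ← algebraMap_eq_C]
    rfl
  have h' : ((((bc0 A (M * p) z : FN (M * p)) / cE Kbar (FN (M * p)) ((p : ℕ) : K0 A) ^ (-n) :
      FN (M * p))) : LaurentSeries Kbar) ∈ gRing A := by
    rw [e]; exact h
  intro h0
  apply hr
  have h1 := Conc.coe_R1_red A M p hp hpM hA _ h'
  rw [h0] at h1
  have h2 : (⟨_, h'⟩ : ↥(gRing A)) = ⟨_, h⟩ := Subtype.ext e
  rw [← h2, ← h1]
  rfl

/-- `W` preserves the rational functions. -/
theorem exists_W_bc0 (z : FF (K0 A) (M * p)) :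
    ∃ z' : FF (K0 A) (M * p), (bc0 A (M * p) z' : FN (M * p)) = Conc.W M p hp hpM (bc0 A (M * p) z) := by
  apply (mem_range_bc0_iff A (M * p) _).2
  intro τ hτ
  have h1 := (mem_range_bc0_iff A (M * p) (bc0 A (M * p) z)).1 ⟨z, rfl⟩ τ hτ
  have h2 := Conc.W_galois M p hp hpM τ (bc0 A (M * p) z)
  have h3 : arithmeticRingAut (modularFunctionFieldFull (M * p)) τ (bc0 A (M * p) z)
      = bc0 A (M * p) z := h1
  rw [h3] at h2
  exact h2.symm

/-- **FACT D** for the two reductions of `FN (M * p)`. -/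
theorem factD_TT : FactD (Conc.TT A M p hp hpM hA) (bc0 A (M * p)) ((p : ℕ) : K0 A) := by
  intro w z hz
  fin_cases w
  · exact factD_R1 A hp hA M hpM z hz
  · obtain ⟨z', hz'⟩ := exists_W_bc0 A hp M hpM z
    have hz'0 : z' ≠ 0 := by
      rintro rfl
      rw [map_zero] at hz'
      exact hz ((map_eq_zero (bc0 A (M * p))).1 ((map_eq_zero (Conc.W M p hp hpM)).1 hz'.symm))
    obtain ⟨n, hn⟩ := factD_R1 A hp hA M hpM z' hz'0
    refine ⟨n, ?_⟩
    show (Conc.R2 A M p hp hpM hA).red _ ≠ 0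
    rw [Conc.R2_red, map_div₀, map_zpow₀, ← hz']
    have : Conc.W M p hp hpM (cE Kbar (FN (M * p)) ((p : ℕ) : K0 A))
        = cE Kbar (FN (M * p)) ((p : ℕ) : K0 A) := AlgEquiv.commutes _ _
    rw [this]
    exact hn

end factD

/-! ### the `K0`-form of a series model -/

section form

variable {A}
variable {E : Type*} [Field E] [Algebra Kbar E] (Sm : SerModel Kbar E ↥(A.inertiaSubgroupIn ℚ))

/-- the fixed field. -/
def fixE : Subfield E where
  carrier := {y | ∀ γ, Sm.Φ γ • y = y}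
  mul_mem' := fun hy hz γ => by rw [smul_mul', hy γ, hz γ]
  one_mem' := fun γ => smul_one _
  add_mem' := fun hy hz γ => by rw [smul_add, hy γ, hz γ]
  zero_mem' := fun γ => smul_zero _
  neg_mem' := fun hy γ => by rw [smul_neg, hy γ]
  inv_mem' := fun _ hy γ => by rw [smul_inv'', hy γ]

theorem mem_fixE {y : E} : y ∈ fixE Sm ↔ ∀ γ, Sm.Φ γ • y = y := Iff.rfl

variable (hbase : ∀ (τ : ↥(A.inertiaSubgroupIn ℚ)) (a : Kbar),
  SemilinearAut.baseAut (Sm.Φ τ) a = (τ : Kbar ≃ₐ[ℚ] Kbar) a)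

include hbase in
theorem algebraMap_mem_fixE (a : K0 A) : algebraMap Kbar E (a : Kbar) ∈ fixE Sm := by
  intro γ
  rw [SemilinearAut.smul_algebraMap, hbase]
  congr 1
  exact mem_K0.1 a.2 γ γ.2

/-- the structure map `K0 A → E ^ I`. -/
def mapK0 : ↥(K0 A) →+* ↥(fixE Sm) :=
  ((algebraMap Kbar E).comp (algebraMap (K0 A) Kbar)).codRestrict (fixE Sm)
    (fun a => algebraMap_mem_fixE Sm hbase a)

/-- the `K0 A`-algebra structure of `E ^ I`. -/
@[reducible] def algK0 : Algebra ↥(K0 A) ↥(fixE Sm) := (mapK0 Sm hbase).toAlgebra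

/-- **The `K0`-form of a series model.** -/
def form : @Form Kbar E ↥(A.inertiaSubgroupIn ℚ) _ _ _ _ Sm ↥(K0 A) ↥(fixE Sm) _ _
    (algK0 Sm hbase) _ :=
  letI := algK0 Sm hbase
  { β := (fixE Sm).subtype
    β_alg := fun _ => rfl
    fix_K0 := fun γ a => by
      rw [hbase]
      exact mem_K0.1 a.2 γ γ.2
    mem_K0 := fun c hc => ⟨⟨c, mem_K0.2 fun τ hτ => by rw [← hbase ⟨τ, hτ⟩]; exact hc ⟨τ, hτ⟩⟩, rfl⟩
    fix_E0 := fun γ z => z.2 γ
    mem_E0 := fun y hy => ⟨⟨y, hy⟩, rfl⟩ }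

end form

end Fermat.Agent.MR.PLC.Desc
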