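import Fermat.Agent.MR.PLC.Ser.Canon
import Fermat.Agent.S36.RC.Conc.Disj
import Fermat.Agent.S36R.AA.LiftAbs

/-!
# MR / PLC / Desc : Galois descent for a series model

`S : Ser.SerModel L E Γ` : `E ⊆ L((q))`, `Γ` acts coefficientwise.  `Form S K0 E0` : `K0 = L^Γ`, `E0 = E^Γ` (as honest types).

* `Form.indep` : linear disjointness of `E0` and `L` over `K0`;
* `Form.bc`    : the Galois base change `S36.RC.BC K0 E0 L E` (descent of stable subspaces by the pivot trick: no continuity is needed);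
* `finOrb S`   : the subfield of the elements with a finite `Γ`-orbit; it is closed under roots;
* `Form.gen`   : `E = L · E0` if all the orbits are finite.
-/

set_option autoImplicit false
set_option linter.unusedSectionVars false

noncomputable section

namespace Fermat.Agent.MR.PLC.Desc

open AlgebraicCurve ModularCurve Fermat.Agent.S36.RC Fermat.Agent.MR.PLC.Ser Module

variable {L E Γ : Type*} [Field L] [Field E] [Algebra L E] [Group Γ] (S : SerModel L E Γ)

/-- the coefficient functionals. -/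
def lam (n : ℤ) : E →ₗ[L] L where
  toFun y := (S.ι y).coeff n
  map_add' y z := by rw [map_add, HahnSeries.coeff_add]
  map_smul' c y := by
    rw [RingHom.id_apply, Algebra.smul_def, map_mul, AlgHom.commutes,
      algebraMap_laurentSeries_eq_single, HahnSeries.coeff_single_zero_mul, smul_eq_mul]

theorem lam_apply (n : ℤ) (y : E) : lam S n y = (S.ι y).coeff n := rfl

theorem lam_sep (y : E) (h : ∀ n, lam S n y = 0) : y = 0 := by
  have h1 : S.ι y = 0 := by
    ext n
    exact h n
  exact (map_eq_zero S.ι).1 h1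

theorem lam_smul (γ : Γ) (n : ℤ) (y : E) :
    lam S n (S.Φ γ • y) = SemilinearAut.baseAut (S.Φ γ) (lam S n y) := by
  rw [lam_apply, S.ι_smul, coeffMap_coeff]
  rfl

theorem smul_smul' (γ : Γ) (c : L) (y : E) :
    S.Φ γ • (c • y) = SemilinearAut.baseAut (S.Φ γ) c • (S.Φ γ • y) := by
  rw [Algebra.smul_def, Algebra.smul_def, smul_mul', SemilinearAut.smul_algebraMap]

/-- `K0 = L^Γ`, `E0 = E^Γ`. -/
structure Form (K0 E0 : Type*) [Field K0] [Field E0] [Algebra K0 E0] [Algebra K0 L] where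
  β : E0 →+* E
  β_alg : ∀ a : K0, β (algebraMap K0 E0 a) = algebraMap L E (algebraMap K0 L a)
  fix_K0 : ∀ (γ : Γ) (a : K0),
    SemilinearAut.baseAut (S.Φ γ) (algebraMap K0 L a) = algebraMap K0 L a
  mem_K0 : ∀ c : L, (∀ γ : Γ, SemilinearAut.baseAut (S.Φ γ) c = c) → ∃ a : K0, algebraMap K0 L a = c
  fix_E0 : ∀ (γ : Γ) (z : E0), S.Φ γ • β z = β z
  mem_E0 : ∀ y : E, (∀ γ : Γ, S.Φ γ • y = y) → ∃ z : E0, β z = y

namespace Form

variable {S} {K0 E0 : Type*} [Field K0] [Field E0] [Algebra K0 E0] [Algebra K0 L]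
  (Fm : Form S K0 E0)

theorem exists_coeff (n : ℤ) (z : E0) : ∃ a : K0, algebraMap K0 L a = lam S n (Fm.β z) :=
  Fm.mem_K0 _ fun γ => by rw [← lam_smul, Fm.fix_E0]

/-- the coefficient functionals on `E0`. -/
def lam0 (n : ℤ) : E0 →ₗ[K0] K0 where
  toFun z := (Fm.exists_coeff n z).choose
  map_add' y z := by
    apply (algebraMap K0 L).injective
    have h1 := (Fm.exists_coeff n (y + z)).choose_spec
    have h2 := (Fm.exists_coeff n y).choose_spec
    have h3 := (Fm.exists_coeff n z).choose_spec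
    rw [map_add (algebraMap K0 L), h1, h2, h3, map_add, map_add]
  map_smul' c z := by
    apply (algebraMap K0 L).injective
    have h1 := (Fm.exists_coeff n (c • z)).choose_spec
    have h2 := (Fm.exists_coeff n z).choose_spec
    rw [RingHom.id_apply, smul_eq_mul, map_mul (algebraMap K0 L), h1, h2, Algebra.smul_def, map_mul,
      Fm.β_alg, ← Algebra.smul_def, map_smul, smul_eq_mul]

theorem algebraMap_lam0 (n : ℤ) (z : E0) : algebraMap K0 L (Fm.lam0 n z) = lam S n (Fm.β z) :=
  (Fm.exists_coeff n z).choose_spec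

theorem lam0_sep (z : E0) (h : ∀ n, Fm.lam0 n z = 0) : z = 0 := by
  have h1 : Fm.β z = 0 := lam_sep S _ fun n => by rw [← Fm.algebraMap_lam0, h n, map_zero]
  exact (map_eq_zero Fm.β).1 h1

/-- **Linear disjointness.** -/
theorem indep (n : ℕ) (z : Fin n → E0) (hz : LinearIndependent K0 z) :
    LinearIndependent L (fun i => Fm.β (z i)) :=
  linearIndependent_of_coeff Fm.lam0 (lam S) Fm.lam0_sep Fm.β
    (fun e f => (Fm.algebraMap_lam0 e f).symm) z hz

theorem const (z : E0) (b : L) (h : Fm.β z = algebraMap L E b) :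
    ∃ a : K0, z = algebraMap K0 E0 a := by
  obtain ⟨a, ha⟩ := Fm.mem_K0 b fun γ => by
    apply (algebraMap L E).injective
    rw [← SemilinearAut.smul_algebraMap, ← h, Fm.fix_E0]
  refine ⟨a, Fm.β.injective ?_⟩
  rw [Fm.β_alg, ha, h]

/-- a stable finite dimensional subspace has a basis of fixed vectors. -/
theorem exists_basis (W : Submodule L E) [Module.Finite L W]
    (hst : ∀ (γ : Γ), ∀ u ∈ W, S.Φ γ • u ∈ W) :
    ∃ b : Fin (finrank L W) → E0, (∀ j, Fm.β (b j) ∈ W) ∧ LinearIndependent K0 b ∧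
      LinearIndependent L (fun j => Fm.β (b j)) := by
  obtain ⟨e, b', hb'W, hli, hδ, hinj⟩ := S36R.AA.exists_dual_basis (lam S) (lam_sep S) W
  have hfix : ∀ j (γ : Γ), S.Φ γ • b' j = b' j := fun j γ =>
    S36R.AA.fixed_of_dual_basis (lam S) W e b' hb'W hδ hinj (fun f => S.Φ γ • f)
      ((SemilinearAut.baseAut (S.Φ γ) : L ≃+* L) : L →+* L) (hst γ) (fun e f => lam_smul S γ e f) j
  choose b hb using fun j => Fm.mem_E0 (b' j) (hfix j)
  have hli' : LinearIndependent L (fun j => Fm.β (b j)) := by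
    have : (fun j => Fm.β (b j)) = b' := funext hb
    rw [this]
    exact hli
  refine ⟨b, fun j => by rw [hb]; exact hb'W j, ?_, hli'⟩
  rw [Fintype.linearIndependent_iff]
  intro g hg i
  have h1 := congrArg Fm.β hg
  rw [map_sum, map_zero] at h1
  have h2 : ∑ j, algebraMap K0 L (g j) • Fm.β (b j) = 0 := by
    rw [← h1]
    refine Finset.sum_congr rfl fun j _ => ?_
    rw [Algebra.smul_def, Algebra.smul_def, map_mul, Fm.β_alg]
  have h3 := Fintype.linearIndependent_iff.1 hli' _ h2 i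
  exact (map_eq_zero (algebraMap K0 L)).1 h3

/-- **The Galois base change attached to a series model.** -/
def bc : BC K0 E0 L E where
  β := Fm.β
  β_alg := Fm.β_alg
  Γ := Set.range S.Φ
  Γ_β := by
    rintro _ ⟨γ, rfl⟩ z
    exact Fm.fix_E0 γ z
  const := Fm.const
  desc := fun W hW hst => by
    obtain ⟨b, hb, hli, -⟩ := Fm.exists_basis W (fun γ u hu => hst _ ⟨γ, rfl⟩ u hu)
    exact finrank_le_pull_of_basis _ _ W (finite_pull_of_indep _ _ Fm.indep W hW) b hb hli
  fin := fun W hW => finite_pull_of_indep _ _ Fm.indep W hW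

@[simp] theorem bc_β : Fm.bc.β = Fm.β := rfl

theorem mem_bc_Γ {g : SemilinearAut L E} : g ∈ Fm.bc.Γ ↔ ∃ γ : Γ, S.Φ γ = g := Iff.rfl

end Form

/-! ### finite orbits -/

/-- the orbit of `y` is finite. -/
def FinOrb (y : E) : Prop := (Set.range fun γ : Γ => S.Φ γ • y).Finite

variable {S}

theorem FinOrb.map₂ {y z : E} (hy : FinOrb S y) (hz : FinOrb S z) (f : E → E → E)
    (hf : ∀ (γ : Γ) (a b : E), S.Φ γ • f a b = f (S.Φ γ • a) (S.Φ γ • b)) : FinOrb S (f y z) := by
  refine (Set.Finite.image2 f hy hz).subset ?_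
  rintro _ ⟨γ, rfl⟩
  exact ⟨_, ⟨γ, rfl⟩, _, ⟨γ, rfl⟩, (hf γ y z).symm⟩

theorem FinOrb.map {y : E} (hy : FinOrb S y) (f : E → E)
    (hf : ∀ (γ : Γ) (a : E), S.Φ γ • f a = f (S.Φ γ • a)) : FinOrb S (f y) := by
  refine (hy.image f).subset ?_
  rintro _ ⟨γ, rfl⟩
  exact ⟨_, ⟨γ, rfl⟩, (hf γ y).symm⟩

theorem finOrb_of_fixed {y : E} (hy : ∀ γ : Γ, S.Φ γ • y = y) : FinOrb S y := by
  refine (Set.finite_singleton y).subset ?_
  rintro _ ⟨γ, rfl⟩
  exact hy γ

variable (S) in
/-- the subfield of the elements with a finite orbit. -/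
def finOrb : Subfield E where
  carrier := {y | FinOrb S y}
  mul_mem' := fun hy hz => hy.map₂ hz (· * ·) fun _ a b => smul_mul' _ a b
  one_mem' := finOrb_of_fixed fun _ => smul_one _
  add_mem' := fun hy hz => hy.map₂ hz (· + ·) fun _ a b => smul_add _ a b
  zero_mem' := finOrb_of_fixed fun _ => smul_zero _
  neg_mem' := fun hy => hy.map (fun a => -a) fun _ a => smul_neg _ a
  inv_mem' := fun _ hy => hy.map (fun a => a⁻¹) fun _ a => smul_inv'' _ a

theorem mem_finOrb {y : E} : y ∈ finOrb S ↔ FinOrb S y := Iff.rfl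

theorem algebraMap_mem_finOrb {c : L}
    (hc : (Set.range fun γ : Γ => SemilinearAut.baseAut (S.Φ γ) c).Finite) :
    algebraMap L E c ∈ finOrb S := by
  refine (hc.image (algebraMap L E)).subset ?_
  rintro _ ⟨γ, rfl⟩
  exact ⟨_, ⟨γ, rfl⟩, (SemilinearAut.smul_algebraMap _ c).symm⟩

/-- the elements with a finite orbit are closed under roots. -/
theorem mem_finOrb_of_pow {n : ℕ} (hn : 0 < n) {y : E} (hy : y ^ n ∈ finOrb S) : y ∈ finOrb S := by
  classical
  have h1 : (⋃ v ∈ (Set.range fun γ : Γ => S.Φ γ • y ^ n), {w : E | w ^ n = v}).Finite := by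
    refine Set.Finite.biUnion hy fun v _ => ?_
    have hne : (Polynomial.X ^ n - Polynomial.C v : Polynomial E) ≠ 0 :=
      Polynomial.X_pow_sub_C_ne_zero hn v
    refine ((Polynomial.X ^ n - Polynomial.C v : Polynomial E).roots.toFinset.finite_toSet).subset ?_
    intro w hw
    rw [Finset.mem_coe, Multiset.mem_toFinset, Polynomial.mem_roots hne]
    simp only [Polynomial.IsRoot.def, Polynomial.eval_sub, Polynomial.eval_pow, Polynomial.eval_X,
      Polynomial.eval_C]
    exact sub_eq_zero.2 hw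
  refine h1.subset ?_
  rintro _ ⟨γ, rfl⟩
  refine Set.mem_biUnion ⟨γ, rfl⟩ ?_
  show (S.Φ γ • y) ^ n = S.Φ γ • y ^ n
  rw [smul_pow']

namespace Form

variable {K0 E0 : Type*} [Field K0] [Field E0] [Algebra K0 E0] [Algebra K0 L]
  (Fm : Form S K0 E0)

/-- an element with a finite orbit is an `L`-combination of fixed elements. -/
theorem mem_span_of_finOrb {y : E} (hy : FinOrb S y) :
    y ∈ Submodule.span L (Set.range Fm.β) := by
  set W : Submodule L E := Submodule.span L (Set.range fun γ : Γ => S.Φ γ • y) with hW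
  have : Module.Finite L W := Module.Finite.span_of_finite L hy
  have hst : ∀ (γ : Γ), ∀ u ∈ W, S.Φ γ • u ∈ W := by
    intro γ u hu
    induction hu using Submodule.span_induction with
    | mem v hv =>
      obtain ⟨δ, rfl⟩ := hv
      refine Submodule.subset_span ⟨γ * δ, ?_⟩
      simp only [map_mul, mul_smul]
    | zero => rw [smul_zero]; exact W.zero_mem
    | add v w _ _ hv hw => rw [smul_add]; exact W.add_mem hv hw
    | smul c v _ hv => rw [smul_smul']; exact W.smul_mem _ hv
  obtain ⟨b, hb, -, hli⟩ := Fm.exists_basis W hst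
  have hli' : LinearIndependent L (fun j => (⟨Fm.β (b j), hb j⟩ : W)) :=
    LinearIndependent.of_comp W.subtype hli
  have htop := hli'.span_eq_top_of_card_eq_finrank' (Fintype.card_fin _)
  have hyW : y ∈ W := Submodule.subset_span ⟨1, by simp⟩
  have h1 : (⟨y, hyW⟩ : W) ∈ Submodule.span L (Set.range fun j => (⟨Fm.β (b j), hb j⟩ : W)) := by
    rw [htop]; trivial
  have h2 := Submodule.mem_map_of_mem (f := W.subtype) h1
  rw [Submodule.map_span] at h2
  refine Submodule.span_mono ?_ h2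
  rintro _ ⟨_, ⟨j, rfl⟩, rfl⟩
  exact ⟨b j, rfl⟩

/-- `E = L · E0`. -/
theorem gen (hfin : ∀ y : E, FinOrb S y) (y : E) : y ∈ Submodule.span L (Set.range Fm.bc.β) :=
  Fm.mem_span_of_finOrb (hfin y)

end Form

end Fermat.Agent.MR.PLC.Desc
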