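import Fermat.Agent.MR.PLC.Desc.Conc
import Fermat.Agent.MR.PLC.End.Contract

/-!
# MR / PLC / Desc : `descStatement : End.DescStatement`
-/

set_option autoImplicit false
set_option linter.unusedSectionVars false
set_option linter.style.haveILetI false
set_option synthInstance.maxHeartbeats 400000

noncomputable section

namespace Fermat.Agent.MR.PLC.Desc

open AlgebraicCurve ModularCurve Fermat.Agent.S24 Fermat.Agent.GAL Fermat.Agent.GAL.RED
  Fermat.Agent.DR Fermat.Agent.DR.Abs Fermat.Agent.DR.Gal Fermat.Agent.S36R Fermat.Agent.S36.RC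
  Fermat.Agent.MR.PLC.Abs Fermat.Agent.MR.PLC.End

/-- **(DESC)** -/
theorem descStatement : DescStatement := by
  intro M p _ _ hp hpM A hA E _ _ _ _ _ Sm hSm
  letI := algK0 Sm hSm.base
  refine ⟨↥(K0 A), ↥(FF (K0 A) (M * p)), ↥(fixE Sm), inferInstance, inferInstance, inferInstance,
    algK0 Sm hSm.base, inferInstance, (form Sm hSm.base).bc, bc0 A (M * p), ((p : ℕ) : K0 A),
    map_natCast _ p, ?_, ?_, (form Sm hSm.base).indep, ?_, factD_TT A hp hA M hpM, ?_⟩
  · exact (MonoidHom.coe_range Sm.Φ).symm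
  · intro y hy
    exact ⟨⟨y, hy⟩, rfl⟩
  · exact base_of_A A hp hA _ rfl
  · intro y hy
    exact (mem_range_bc0_iff A (M * p) y).2 hy

end Fermat.Agent.MR.PLC.Desc
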